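import Mathlib.NumberTheory.PythagoreanTriples
import Mathlib.Tactic

/-! Elementary descent: rational points of X₀(15) : Y² = X(X-9)(X-25). -/

set_option autoImplicit false

namespace Fermat.Agent.EC.Fifteen

private lemma odd_sq_mod_eight {z : ℤ} (h : z % 2 = 1) : z ^ 2 % 8 = 1 := by
  have : z % 8 = 1 ∨ z % 8 = 3 ∨ z % 8 = 5 ∨ z % 8 = 7 := by omega
  rcases this with h | h | h | h <;> simp [sq, Int.mul_emod, h]

/-- One step of the descent for the concordant pair `a²+d²=c²`, `a²+16d²=b²`, with `a` odd. -/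
lemma concordant_step {a d b c : ℤ} (hco : IsCoprime a d) (ha4 : a % 4 = 1) (hd : d ≠ 0)
    (h1 : a ^ 2 + d ^ 2 = c ^ 2) (h2 : a ^ 2 + 16 * d ^ 2 = b ^ 2) :
    ∃ a' d' b' c' : ℤ, IsCoprime a' d' ∧ a' ≠ 0 ∧ d' ≠ 0 ∧
      (a' * d').natAbs < (a * d).natAbs ∧
      a' ^ 2 + d' ^ 2 = c' ^ 2 ∧ a' ^ 2 + 16 * d' ^ 2 = b' ^ 2 := by
  have hodd : a % 2 = 1 := by omega
  have ha0 : a ≠ 0 := by omega
  have hc : 0 < |c| := by
    rw [abs_pos]; rintro rfl
    have : a ^ 2 > 0 := by positivity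
    nlinarith [sq_nonneg d]
  have hb : 0 < |b| := by
    rw [abs_pos]; rintro rfl
    have : a ^ 2 > 0 := by positivity
    nlinarith [sq_nonneg d]
  have hg1 : Int.gcd a d = 1 := Int.isCoprime_iff_gcd_eq_one.mp hco
  have hco4 : IsCoprime a (4 * d) := by
    refine IsCoprime.mul_right ?_ hco
    refine ⟨1, -(a / 4), ?_⟩
    omega
  have hg2 : Int.gcd a (4 * d) = 1 := Int.isCoprime_iff_gcd_eq_one.mp hco4
  have ht1 : PythagoreanTriple a d |c| := by
    unfold PythagoreanTriple; rw [abs_mul_abs_self]; linear_combination h1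
  have ht2 : PythagoreanTriple a (4 * d) |b| := by
    unfold PythagoreanTriple; rw [abs_mul_abs_self]; linear_combination h2
  obtain ⟨P, Q, haP, hdP, -, hPQ, hparP, -⟩ := ht1.coprime_classification' hg1 hodd hc
  obtain ⟨R, S, haR, hdR, -, hRS, hparR, -⟩ := ht2.coprime_classification' hg2 hodd hb
  have sqmod : ∀ m n : ℤ, m % 2 = 0 → n % 2 = 1 → (m ^ 2 - n ^ 2) % 4 = 3 := by
    intro m n hm hn
    obtain ⟨i, rfl⟩ : (2:ℤ) ∣ m := Int.dvd_of_emod_eq_zero hm
    obtain ⟨j, rfl⟩ : ∃ j, n = 2 * j + 1 := ⟨n / 2, by omega⟩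
    ring_nf; omega
  have hP : P % 2 = 1 ∧ Q % 2 = 0 := by
    rcases hparP with h | h
    · have := sqmod P Q h.1 h.2; omega
    · exact h
  have hR : R % 2 = 1 ∧ S % 2 = 0 := by
    rcases hparR with h | h
    · have := sqmod R S h.1 h.2; omega
    · exact h
  have hRS4 : R * S = 4 * (P * Q) := by linarith
  obtain ⟨S', rfl⟩ : (4 : ℤ) ∣ S := by
    have hcR : IsCoprime (4 : ℤ) R := by
      have h2 : IsCoprime (2 : ℤ) R := ⟨-(R / 2), 1, by omega⟩
      simpa using h2.pow_left (m := 2)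
    exact hcR.dvd_of_dvd_mul_left ⟨_, hRS4⟩
  have hkey : R * S' = P * Q := by linarith
  have hP0 : P ≠ 0 := by omega
  obtain ⟨x, y, z, hPxy, hRxz, hyz⟩ : ∃ x y z : ℤ, P = x * y ∧ R = x * z ∧ IsCoprime y z := by
    have hg : Int.gcd P R ≠ 0 := by simp [Int.gcd_eq_zero_iff, hP0]
    obtain ⟨y, z, h, hy, hz⟩ := Int.exists_gcd_one (m := P) (n := R) (Nat.pos_of_ne_zero hg)
    exact ⟨Int.gcd P R, y, z, by linear_combination hy, by linear_combination hz,
      Int.isCoprime_iff_gcd_eq_one.mpr h⟩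
  subst hPxy hRxz
  have hx0 : x ≠ 0 := left_ne_zero_of_mul hP0
  have hy0 : y ≠ 0 := right_ne_zero_of_mul hP0
  have hkey' : z * S' = y * Q := mul_left_cancel₀ hx0 (by linear_combination hkey)
  obtain ⟨w, rfl⟩ : z ∣ Q := hyz.symm.dvd_of_dvd_mul_left ⟨S', hkey'.symm⟩
  have hz0 : z ≠ 0 := by rintro rfl; omega
  have hS' : S' = y * w := mul_left_cancel₀ hz0 (by linear_combination hkey')
  subst hS'
  have hx2 : x % 2 = 1 := by
    rcases Int.emod_two_eq_zero_or_one x with h | h <;> simp_all [Int.mul_emod]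
  have hz2 : z % 2 = 1 := by
    have := hR.1
    rcases Int.emod_two_eq_zero_or_one z with h | h <;> simp_all [Int.mul_emod]
  have hcxw : IsCoprime x w :=
    (Int.isCoprime_iff_gcd_eq_one.mpr hPQ).of_mul_left_left.of_mul_right_right
  have heq : x ^ 2 * (y ^ 2 - z ^ 2) = w ^ 2 * (z ^ 2 - 16 * y ^ 2) := by
    linear_combination haR - haP
  obtain ⟨k, hk⟩ : x ^ 2 ∣ z ^ 2 - 16 * y ^ 2 :=
    (hcxw.pow (m := 2) (n := 2)).dvd_of_dvd_mul_left ⟨_, heq.symm⟩
  have hk' : y ^ 2 - z ^ 2 = w ^ 2 * k :=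
    mul_left_cancel₀ (pow_ne_zero 2 hx0) (by rw [heq, hk]; ring)
  have hk15 : k ∣ 15 := by
    have e1 : k ∣ 15 * y ^ 2 := ⟨-(w ^ 2 + x ^ 2), by linear_combination -hk - hk'⟩
    have e2 : k ∣ 15 * z ^ 2 := ⟨-(16 * w ^ 2 + x ^ 2), by linear_combination -hk - 16 * hk'⟩
    obtain ⟨s, t, hst⟩ := hyz.pow (m := 2) (n := 2)
    have := dvd_add (dvd_mul_of_dvd_right e1 s) (dvd_mul_of_dvd_right e2 t)
    rwa [show s * (15 * y ^ 2) + t * (15 * z ^ 2) = 15 * (s * y ^ 2 + t * z ^ 2) by ring, hst,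
      mul_one] at this
  have hd' : d = 2 * (x * y) * (z * w) := hdP
  have hw0 : w ≠ 0 := by rintro rfl; apply hd; rw [hd']; ring
  have hkneg : k < 0 := by
    have hypos : 0 < y ^ 2 := by positivity
    have : k * (w ^ 2 + x ^ 2) = -15 * y ^ 2 := by linear_combination -hk - hk'
    nlinarith
  have hkrange : -15 ≤ k := by
    have := Int.le_of_dvd (by norm_num) ((Int.neg_dvd).mpr hk15)
    omega
  have hk8 : k % 8 = 1 := by
    have e1 := odd_sq_mod_eight hz2
    have e2 := odd_sq_mod_eight hx2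
    have e3 : (x ^ 2 * k) % 8 = k % 8 := by rw [Int.mul_emod, e2]; simp
    omega
  have hk15' : k = -15 := by
    rcases (show k = -15 ∨ k = -7 by omega) with h | h
    · exact h
    · subst h; norm_num at hk15
  subst hk15'
  refine ⟨x, w, z, y, hcxw, hx0, hw0, ?_, ?_, ?_⟩
  · have hyz0 : 0 < (y * z).natAbs := Int.natAbs_pos.mpr (mul_ne_zero hy0 hz0)
    have hxw : 0 < (x * w).natAbs := Int.natAbs_pos.mpr (mul_ne_zero hx0 hw0)
    have ha1 : 0 < a.natAbs := Int.natAbs_pos.mpr ha0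
    rw [Int.natAbs_mul a d, show d = 2 * ((x * w) * (y * z)) by rw [hd']; ring]
    rw [Int.natAbs_mul 2, Int.natAbs_mul (x * w) (y * z), show (2 : ℤ).natAbs = 2 from rfl]
    calc (x * w).natAbs < 1 * (2 * ((x * w).natAbs * 1)) := by omega
      _ ≤ a.natAbs * (2 * ((x * w).natAbs * (y * z).natAbs)) := by gcongr <;> omega
  · linarith
  · linarith

/-- `a²+d²` and `a²+16d²` are both squares only if `ad = 0`. -/
lemma concordant (a d b c : ℤ) (hco : IsCoprime a d)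
    (h1 : a ^ 2 + d ^ 2 = c ^ 2) (h2 : a ^ 2 + 16 * d ^ 2 = b ^ 2) : a = 0 ∨ d = 0 := by
  induction hn : (a * d).natAbs using Nat.strong_induction_on generalizing a d b c with
  | _ n ih =>
  by_contra! hne
  obtain ⟨ha, hd⟩ := hne
  rcases Int.emod_two_eq_zero_or_one a with he | ho
  · obtain ⟨a', rfl⟩ : (2:ℤ) ∣ a := Int.dvd_of_emod_eq_zero he
    have hd2 : d % 2 = 1 := by
      rcases Int.emod_two_eq_zero_or_one d with h | h
      · obtain ⟨d', rfl⟩ : (2:ℤ) ∣ d := Int.dvd_of_emod_eq_zero h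
        have := hco.of_mul_left_left.of_mul_right_left
        simp [Int.isCoprime_iff_gcd_eq_one] at this
      · exact h
    have hb2 : b % 2 = 0 := by
      have : (b * b) % 2 = 0 := by
        have : b * b = 2 * (2 * a' ^ 2 + 8 * d ^ 2) := by linear_combination -h2
        omega
      rcases Int.emod_two_eq_zero_or_one b with h | h <;> simp_all [Int.mul_emod]
    obtain ⟨b', rfl⟩ : (2:ℤ) ∣ b := Int.dvd_of_emod_eq_zero hb2
    have ha'2 : a' % 2 = 0 := by
      rcases Int.emod_two_eq_zero_or_one a' with h | h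
      · exact h
      · exfalso
        have e1 := odd_sq_mod_eight hd2
        have e2 := odd_sq_mod_eight h
        have e3 : c % 2 = 1 := by
          rcases Int.emod_two_eq_zero_or_one c with hc | hc
          · obtain ⟨c', rfl⟩ : (2:ℤ) ∣ c := Int.dvd_of_emod_eq_zero hc
            ring_nf at h1 e1; omega
          · exact hc
        have e4 := odd_sq_mod_eight e3
        have : (2*a') ^ 2 = 4 * a' ^ 2 := by ring
        omega
    obtain ⟨a'', rfl⟩ : (2:ℤ) ∣ a' := Int.dvd_of_emod_eq_zero ha'2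
    have hb'2 : b' % 2 = 0 := by
      have : b' * b' = 2 * (2 * a'' ^ 2 + 2 * d ^ 2) := by linarith
      have : (b' * b') % 2 = 0 := by omega
      rcases Int.emod_two_eq_zero_or_one b' with h | h
      · exact h
      · exfalso; rw [Int.mul_emod, h] at this; simp at this
    obtain ⟨b'', rfl⟩ : (2:ℤ) ∣ b' := Int.dvd_of_emod_eq_zero hb'2
    have ha'' : a'' ≠ 0 := by rintro rfl; simp at ha
    have hlt : (d * a'').natAbs < n := by
      rw [← hn]; simp only [Int.natAbs_mul]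
      norm_num
      have := Int.natAbs_pos.mpr ha''
      have := Int.natAbs_pos.mpr hd
      nlinarith
    rcases ih _ hlt d a'' c b'' hco.of_mul_left_right.of_mul_left_right.symm
        (by linarith) (by linarith) rfl with h | h
    · exact hd h
    · exact ha'' h
  · have key : ∀ a₁ : ℤ, a₁ % 4 = 1 → a₁ ^ 2 = a ^ 2 → IsCoprime a₁ d →
        (a₁ * d).natAbs = (a * d).natAbs → False := by
      intro a₁ h4 hsq hc1 habs
      obtain ⟨a', d', b', c', hc', ha', hd', hlt, e1, e2⟩ :=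
        concordant_step hc1 h4 hd (b := b) (c := c) (by rw [hsq, h1]) (by rw [hsq, h2])
      rcases ih _ (by omega) a' d' b' c' hc' e1 e2 rfl with h | h
      · exact ha' h
      · exact hd' h
    rcases (show a % 4 = 1 ∨ (-a) % 4 = 1 by omega) with h | h
    · exact key a h rfl hco rfl
    · exact key (-a) h (neg_sq a) hco.neg_left (by simp)

private lemma three_dvd_of_sq_add {u v : ℤ} (h : (3:ℤ) ∣ u ^ 2 + v ^ 2) :
    (3:ℤ) ∣ u ∧ (3:ℤ) ∣ v := by
  have : ∀ a b : ZMod 3, a ^ 2 + b ^ 2 = 0 → a = 0 ∧ b = 0 := by decide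
  obtain ⟨hu, hv⟩ := this (u : ZMod 3) (v : ZMod 3)
    (by exact_mod_cast (ZMod.intCast_zmod_eq_zero_iff_dvd _ 3).mpr h)
  exact ⟨(ZMod.intCast_zmod_eq_zero_iff_dvd _ 3).mp hu,
    (ZMod.intCast_zmod_eq_zero_iff_dvd _ 3).mp hv⟩

private lemma concordant_rat {w c b : ℚ} (h1 : w ^ 2 + 1 = c ^ 2) (h2 : w ^ 2 + 16 = b ^ 2) :
    w = 0 := by
  have key : ∀ t z : ℚ, ∀ k : ℤ, t ^ 2 + k = z ^ 2 →
      ∃ n : ℤ, t.num ^ 2 + k * (t.den : ℤ) ^ 2 = n ^ 2 := by
    intro t z k hk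
    have : IsSquare ((t.num ^ 2 + k * (t.den : ℤ) ^ 2 : ℤ) : ℚ) := by
      refine ⟨z * t.den, ?_⟩
      push_cast
      rw [← Rat.mul_den_eq_num]
      linear_combination ((t.den : ℚ) ^ 2) * hk
    obtain ⟨n, hn⟩ := Rat.isSquare_intCast_iff.mp this
    exact ⟨n, by rw [hn]; ring⟩
  obtain ⟨n1, hn1⟩ := key w c 1 (by exact_mod_cast h1)
  obtain ⟨n2, hn2⟩ := key w b 16 (by exact_mod_cast h2)
  rcases concordant w.num w.den n2 n1 (Rat.isCoprime_num_den w) (by linarith) (by linarith)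
    with h | h
  · exact Rat.num_eq_zero.mp h
  · exact absurd (by exact_mod_cast h) w.den_nz

/-- Rational solutions of `(w²+1)(w²+16) = s²`. -/
lemma quartic_rat {w s : ℚ} (h : (w ^ 2 + 1) * (w ^ 2 + 16) = s ^ 2) : w = 0 ∨ w ^ 2 = 4 := by
  by_cases hw0 : w = 0
  · exact Or.inl hw0
  by_cases h4 : w ^ 2 = 4
  · exact Or.inr h4
  exfalso
  set u := w.num
  set v : ℤ := (w.den : ℤ) with hvdef
  have hvQ : (v : ℚ) ≠ 0 := by rw [hvdef]; exact_mod_cast w.den_nz
  have hu : (u : ℚ) = w * v := by rw [hvdef]; exact_mod_cast (Rat.mul_den_eq_num w).symm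
  have hv : v ≠ 0 := by exact_mod_cast hvQ
  have hco : IsCoprime u v := Rat.isCoprime_num_den w
  obtain ⟨S, hS⟩ : IsSquare ((u ^ 2 + v ^ 2) * (u ^ 2 + 16 * v ^ 2)) := by
    rw [← Rat.isSquare_intCast_iff]
    exact ⟨s * v ^ 2, by push_cast; rw [hu]; linear_combination ((v : ℚ) ^ 4) * h⟩
  set X := u ^ 2 + v ^ 2 with hX
  set Y := u ^ 2 + 16 * v ^ 2 with hY
  have hXpos : 0 < X := by positivity
  obtain ⟨g, hg15, m, n, hm, hn, hmn⟩ :
      ∃ g : ℕ, g ∣ 15 ∧ ∃ m n : ℤ, X = g * m ∧ Y = g * n ∧ IsCoprime m n := by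
    have hpos : 0 < Int.gcd X Y := Int.gcd_pos_of_ne_zero_left _ hXpos.ne'
    obtain ⟨m, n, h1, hm, hn⟩ := Int.exists_gcd_one hpos
    refine ⟨Int.gcd X Y, ?_, m, n, by linear_combination hm, by linear_combination hn,
      Int.isCoprime_iff_gcd_eq_one.mpr h1⟩
    have eX : (Int.gcd X Y : ℤ) ∣ X := Int.gcd_dvd_left _ _
    have eY : (Int.gcd X Y : ℤ) ∣ Y := Int.gcd_dvd_right _ _
    obtain ⟨p, q, hpq⟩ := hco.pow (m := 2) (n := 2)
    have := dvd_add (dvd_mul_of_dvd_right (dvd_sub (dvd_mul_of_dvd_right eX 16) eY) p)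
      (dvd_mul_of_dvd_right (dvd_sub eY eX) q)
    have e : p * (16 * X - Y) + q * (Y - X) = ((15 : ℕ) : ℤ) := by
      rw [hX, hY]; push_cast; linear_combination 15 * hpq
    rw [e] at this
    exact_mod_cast this
  have hg3 : g = 1 ∨ g = 5 := by
    have hgle : g ≤ 15 := Nat.le_of_dvd (by norm_num) hg15
    have h3 : ¬ (3:ℕ) ∣ g := by
      intro h3
      obtain ⟨a, b⟩ := three_dvd_of_sq_add (u := u) (v := v)
        (by rw [← hX, hm]; exact dvd_mul_of_dvd_left (by exact_mod_cast h3) _)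
      have := hco.isUnit_of_dvd' a b
      norm_num [Int.isUnit_iff] at this
    interval_cases g <;> simp_all
  have hgpos : (0:ℤ) < g := by rcases hg3 with rfl | rfl <;> norm_num
  have hmpos : 0 < m := pos_of_mul_pos_right (hm ▸ hXpos) hgpos.le
  have hnnn : 0 ≤ n := nonneg_of_mul_nonneg_right (by rw [← hn]; positivity : (0:ℤ) ≤ g * n) hgpos
  have hsq : IsSquare (m * n) := by
    rw [← Rat.isSquare_intCast_iff]
    refine ⟨(S : ℚ) / g, ?_⟩
    have hgQ : (g : ℚ) ≠ 0 := by exact_mod_cast hgpos.ne'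
    have := congrArg (fun z : ℤ => (z : ℚ)) hS
    simp only [hm, hn] at this
    push_cast at this ⊢
    field_simp
    linear_combination this
  obtain ⟨r, hr⟩ := hsq
  obtain ⟨c, hc⟩ : ∃ c : ℤ, m = c ^ 2 := by
    obtain ⟨c, hc | hc⟩ := Int.sq_of_isCoprime hmn (c := r) (by rw [hr]; ring)
    · exact ⟨c, hc⟩
    · exfalso; nlinarith [sq_nonneg c]
  obtain ⟨b, hb⟩ : ∃ b : ℤ, n = b ^ 2 := by
    obtain ⟨b, hb | hb⟩ := Int.sq_of_isCoprime hmn.symm (c := r) (by rw [mul_comm, hr]; ring)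
    · exact ⟨b, hb⟩
    · exact ⟨0, by nlinarith [sq_nonneg b]⟩
  rcases hg3 with rfl | rfl
  · rcases concordant u v b c hco (by rw [← hX, hm, hc]; simp) (by rw [← hY, hn, hb]; simp) with
      h | h
    · exact hw0 (Rat.num_eq_zero.mp h)
    · exact hv h
  -- `g = 5`: translate by the rational point (4, 20) of `y² = x(x+1)(x+16)`.
  have hw2 : 5 * (w ^ 2 + 1) = (5 * (c : ℚ) / v) ^ 2 := by
    have := congrArg (fun z : ℤ => (z : ℚ)) (hm.trans (by rw [hc]))
    simp only [hX] at this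
    push_cast at this
    rw [hu] at this
    rw [div_pow, eq_div_iff (pow_ne_zero 2 hvQ)]
    linear_combination 5 * this
  have hne : w ^ 2 - 4 ≠ 0 := sub_ne_zero.mpr h4
  have hr0 : 5 * (c : ℚ) / v ≠ 0 := by
    intro h0
    rw [h0] at hw2
    nlinarith [sq_nonneg w]
  obtain ⟨lam, hlamE⟩ : ∃ lam : ℚ, lam * (w ^ 2 - 4) = w * s - 20 :=
    ⟨(w * s - 20) / (w ^ 2 - 4), div_mul_cancel₀ _ hne⟩
  obtain ⟨w', hw'E⟩ : ∃ w' : ℚ, w' * (2 * w) = 20 - 4 * lam :=
    ⟨(20 - 4 * lam) / (2 * w), div_mul_cancel₀ _ (mul_ne_zero two_ne_zero hw0)⟩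
  have hx' : w' ^ 2 = lam ^ 2 - 21 - w ^ 2 := by
    refine mul_left_cancel₀ (show (2 * w) ^ 2 * (w^2-4) ≠ 0 by
      exact mul_ne_zero (pow_ne_zero 2 (by simpa using hw0)) hne) ?_
    linear_combination ((w' * (2 * w) + (20 - 4 * lam)) * (w^2-4)) * hw'E
      - 4 * (lam * (w^2-4) + 20 + w * s) * hlamE + 4 * w^2 * h
  have hline : ∀ x : ℚ, x * (x + 1) * (x + 16) - (20 + lam * (x - 4)) ^ 2
      = (x - 4) * (x - w ^ 2) * (x - w' ^ 2) := by
    intro x
    refine mul_left_cancel₀ hne ?_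
    rw [hx']
    linear_combination (-(x - 4) * (lam * (w^2-4) + 20 + w * s)) * hlamE
      + ((x - 4) * w^2) * h
  have e1 : w' ^ 2 + 1 = ((20 - 5 * lam) / (5 * (c : ℚ) / v)) ^ 2 := by
    rw [div_pow, eq_div_iff (pow_ne_zero 2 hr0), ← hw2]
    linear_combination hline (-1)
  have hr1 : w' = 0 := by
    by_cases hzero : w' = 0
    · exact hzero
    rcases eq_or_ne ((20 - 5 * lam) / (5 * (c : ℚ) / v)) 0 with h0 | h0
    · rw [h0] at e1; nlinarith [sq_nonneg w']
    refine concordant_rat e1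
      (b := (20 + lam * (w' ^ 2 - 4)) / (w' * ((20 - 5 * lam) / (5 * (c : ℚ) / v)))) ?_
    rw [div_pow, eq_div_iff (pow_ne_zero 2 (mul_ne_zero hzero h0)), mul_pow _ _ 2, ← e1]
    linear_combination hline (w' ^ 2)
  have hl5 : lam = 5 := by rw [hr1] at hw'E; linarith
  rw [hl5] at hlamE
  have hs : s = 5 * w := mul_left_cancel₀ hw0 (by linarith)
  rw [hs] at h
  exact h4 (by nlinarith [sq_nonneg (w ^ 2 - 4)])

/-- The rational points of `X₀(15) : Y² = X(X-9)(X-25)`. -/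
theorem x0fifteen_points {X Y : ℚ} (h : Y ^ 2 = X * (X - 9) * (X - 25)) :
    X = 0 ∨ X = 9 ∨ X = 25 ∨ X = 5 ∨ X = 45 := by
  by_cases hX : X = 0
  · exact Or.inl hX
  have hq : ((Y / (2 * X)) ^ 2 + 1) * ((Y / (2 * X)) ^ 2 + 16)
      = ((X ^ 2 - 225) * Y / (8 * X ^ 2) / (Y / (2 * X))) ^ 2 ∨ Y = 0 := by
    by_cases hY : Y = 0
    · exact Or.inr hY
    left
    field_simp
    rw [h]; ring
  rcases hq with hq | hY
  · rcases quartic_rat hq with h0 | h0
    · have hY : Y = 0 := by simpa [hX] using h0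
      rw [hY] at h
      simp [hX, sub_eq_zero] at h
      tauto
    · rw [div_pow, div_eq_iff (pow_ne_zero 2 (by simpa using hX)), h] at h0
      have : (X - 5) * (X - 45) = 0 := mul_left_cancel₀ hX (by linear_combination h0)
      rcases mul_eq_zero.mp this with e | e
      · right; right; right; left; linarith
      · right; right; right; right; linarith
  · rw [hY] at h
    simp [hX, sub_eq_zero] at h
    tauto

end Fermat.Agent.EC.Fifteen
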