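import Mathlib.AlgebraicGeometry.EllipticCurve.Affine.Point
import Mathlib.Tactic

/-! Coordinates of points of order 3 and 5: the algebra behind the parameters of X₀(3) and X₀(5). -/

set_option autoImplicit false

open WeierstrassCurve

namespace Fermat.Agent.EC.Fifteen

variable {K : Type*} [Field K] [DecidableEq K] [CharZero K] {W : WeierstrassCurve.Affine K}

/-- `y + (a₁x+a₃)/2`. -/
def ctrY (W : WeierstrassCurve.Affine K) (x y : K) : K := y + (W.a₁ * x + W.a₃) / 2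

omit [DecidableEq K] in
lemma ctrY_sq {x y : K} (h : W.Nonsingular x y) :
    ctrY W x y ^ 2 = x ^ 3 + W.b₂ / 4 * x ^ 2 + W.b₄ / 2 * x + W.b₆ / 4 := by
  have he := (W.equation_iff x y).mp h.1
  simp only [ctrY, WeierstrassCurve.b₂, WeierstrassCurve.b₄, WeierstrassCurve.b₆]
  linear_combination he

/-- The tangent line at `(x, y)` meets the curve again above `x'`, where `(x', y') = 2•(x, y)`. -/
lemma double_some {x y x' y' : K} {h : W.Nonsingular x y} {h' : W.Nonsingular x' y'}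
    (he : Affine.Point.some x y h + Affine.Point.some x y h = Affine.Point.some x' y' h') :
    ∃ u : K, u ^ 2 = x' + 2 * x + W.b₂ / 4 ∧
      ctrY W x' y' + ctrY W x y + u * (x' - x) = 0 ∧
      3 * x ^ 2 + W.b₂ / 2 * x + W.b₄ / 2 = 2 * u * ctrY W x y := by
  have hy : y ≠ W.negY x y := by
    intro hy
    rw [Affine.Point.add_self_of_Y_eq hy] at he
    exact Affine.Point.some_ne_zero h' he.symm
  have hne : y - W.negY x y ≠ 0 := sub_ne_zero.mpr hy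
  have hs := W.slope_of_Y_ne (x₁ := x) (x₂ := x) (y₁ := y) (y₂ := y) rfl hy
  obtain ⟨ℓ, hℓ⟩ : ∃ ℓ, ℓ = W.slope x x y y := ⟨_, rfl⟩
  have hℓE : ℓ * (y - W.negY x y) = 3 * x ^ 2 + 2 * W.a₂ * x + W.a₄ - W.a₁ * y := by
    rw [hℓ, hs, div_mul_cancel₀ _ hne]
  rw [Affine.Point.add_self_of_Y_ne hy] at he
  simp only [Affine.Point.some.injEq, ← hℓ] at he
  obtain ⟨hx', hy'⟩ := he
  subst hx' hy'
  refine ⟨ℓ + W.a₁ / 2, ?_, ?_, ?_⟩
  · simp only [Affine.addX, WeierstrassCurve.b₂]; ring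
  · simp only [ctrY, Affine.addX, Affine.addY, Affine.negAddY, Affine.negY]; ring
  · simp only [Affine.negY] at hℓE
    simp only [ctrY, WeierstrassCurve.b₂, WeierstrassCurve.b₄]
    linear_combination (-(1:K)) * hℓE

/-- The abscissa of a point of order 3 is a root of `ψ₃`. -/
lemma psi3_eq_zero {x y : K} {h : W.Nonsingular x y}
    (h3 : (3 : ℕ) • Affine.Point.some x y h = 0) :
    3 * x ^ 4 + W.b₂ * x ^ 3 + 3 * W.b₄ * x ^ 2 + 3 * W.b₆ * x + W.b₈ = 0 := by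
  have he : Affine.Point.some x y h + Affine.Point.some x y h
      = Affine.Point.some x (W.negY x y) ((W.nonsingular_neg x y).mpr h) := by
    rw [← Affine.Point.neg_some (h := h)]
    rw [succ_nsmul, two_nsmul] at h3
    exact eq_neg_of_add_eq_zero_left h3
  obtain ⟨u, h1, -, h3'⟩ := double_some he
  have hF := ctrY_sq h
  linear_combination (-4 * ctrY W x y ^ 2) * h1
    - ((12 * x + W.b₂) : K) * hF
    - (3 * x ^ 2 + W.b₂ / 2 * x + W.b₄ / 2 + 2 * u * ctrY W x y) * h3'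
    + (1 / 4 : K) * W.b_relation

/-- The cubic of a Weierstrass curve with a cyclic subgroup of order 5, centred at that subgroup. -/
lemma five_data {x₁ y₁ : K} {h₁ : W.Nonsingular x₁ y₁}
    (h5 : (5 : ℕ) • Affine.Point.some x₁ y₁ h₁ = 0) :
    ∃ (x₂ y₂ g : K) (h₂ : W.Nonsingular x₂ y₂),
      Affine.Point.some x₁ y₁ h₁ + Affine.Point.some x₁ y₁ h₁ = Affine.Point.some x₂ y₂ h₂ ∧
      x₁ ≠ x₂ ∧
      let c := (x₁ + x₂) / 2
      let D := (x₁ - x₂) ^ 2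
      let q := 6 * c + W.b₂ / 2
      4 * (3 * c ^ 2 + W.b₂ / 2 * c + W.b₄ / 2) = 4 * g - D ∧
      8 * (c ^ 3 + W.b₂ / 4 * c ^ 2 + W.b₄ / 2 * c + W.b₆ / 4) = q * D ∧
      q ^ 2 * D = D ^ 2 + 4 * g ^ 2 := by
  set P := Affine.Point.some x₁ y₁ h₁ with hPdef
  have hP : P ≠ 0 := Affine.Point.some_ne_zero h₁
  have hdvd : ∀ n : ℕ, n • P = 0 → 5 ∣ n := by
    intro n hn
    have : Fact (Nat.Prime 5) := ⟨by norm_num⟩
    rw [← addOrderOf_eq_prime h5 hP]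
    exact addOrderOf_dvd_of_nsmul_eq_zero hn
  rcases hPP : P + P with _ | ⟨x₂, y₂, h₂⟩
  · exfalso
    have := hdvd 2 (by rw [two_nsmul, hPP]; rfl)
    norm_num at this
  have hQQ : Affine.Point.some x₂ y₂ h₂ + Affine.Point.some x₂ y₂ h₂
      = Affine.Point.some x₁ (W.negY x₁ y₁) ((W.nonsingular_neg x₁ y₁).mpr h₁) := by
    rw [← Affine.Point.neg_some (h := h₁), ← hPdef, ← hPP]
    refine eq_neg_of_add_eq_zero_left ?_
    rw [← h5]
    simp only [succ_nsmul, zero_nsmul, zero_add, add_assoc]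
  have hx12 : x₁ ≠ x₂ := by
    intro hx
    rcases (Affine.Point.X_eq_iff (h₁ := h₁) (h₂ := h₂)).mp hx with h | h
    · rw [← hPdef, ← hPP] at h
      exact hP (by simp at h)
    · rw [← hPdef, ← hPP, eq_neg_iff_add_eq_zero] at h
      have := hdvd 3 (by rw [← h, succ_nsmul, two_nsmul]; abel)
      norm_num at this
  obtain ⟨u, hu, hlu, hdu⟩ := double_some hPP
  obtain ⟨v, hv, hlv, -⟩ := double_some hQQ
  have hneg : ctrY W x₁ (W.negY x₁ y₁) = -ctrY W x₁ y₁ := by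
    simp only [ctrY, Affine.negY]; ring
  rw [hneg] at hlv
  have hF := ctrY_sq h₁
  refine ⟨x₂, y₂, u * v * (x₁ - x₂), h₂, rfl, hx12, ?_⟩
  generalize ctrY W x₁ y₁ = Y₁ at *
  generalize ctrY W x₂ y₂ = Y₂ at *
  generalize W.b₂ = B₂ at *
  generalize W.b₄ = B₄ at *
  generalize W.b₆ = B₆ at *
  obtain rfl : B₂ = 4 * (u ^ 2 - x₂ - 2 * x₁) := by linear_combination (-4 : K) * hu
  obtain rfl : x₁ = x₂ + u ^ 2 - v ^ 2 := by linear_combination hv
  obtain rfl : Y₁ = (u + v) * (u ^ 2 - v ^ 2) / 2 := by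
    linear_combination (1/2 : K) * hlu - (1/2 : K) * hlv
  obtain rfl : B₄ = 2 * (2 * u * ((u + v) * (u ^ 2 - v ^ 2) / 2) - 3 * (x₂ + u ^ 2 - v ^ 2) ^ 2
      - 4 * (u ^ 2 - x₂ - 2 * (x₂ + u ^ 2 - v ^ 2)) / 2 * (x₂ + u ^ 2 - v ^ 2)) := by
    linear_combination (2 : K) * hdu
  obtain rfl : B₆ = 4 * (((u + v) * (u ^ 2 - v ^ 2) / 2) ^ 2 - (x₂ + u ^ 2 - v ^ 2) ^ 3
      - 4 * (u ^ 2 - x₂ - 2 * (x₂ + u ^ 2 - v ^ 2)) / 4 * (x₂ + u ^ 2 - v ^ 2) ^ 2
      - 2 * (2 * u * ((u + v) * (u ^ 2 - v ^ 2) / 2) - 3 * (x₂ + u ^ 2 - v ^ 2) ^ 2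
          - 4 * (u ^ 2 - x₂ - 2 * (x₂ + u ^ 2 - v ^ 2)) / 2 * (x₂ + u ^ 2 - v ^ 2)) / 2
        * (x₂ + u ^ 2 - v ^ 2)) := by
    linear_combination (-4 : K) * hF
  refine ⟨?_, ?_, ?_⟩ <;> ring

end Fermat.Agent.EC.Fifteen
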