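import Fermat.Agent.EC.Fifteen.Param
import Fermat.Agent.EC.Fifteen.Lines
import Fermat.Agent.EC.Isogeny.TorsionCard
import Fermat.Agent.Gal.Places
import Fermat.Prelude.Def_FLTPrelim_ModularRep

/-! A semistable curve over ℚ has no rational cyclic subgroup of order 15. -/

set_option autoImplicit false

open WeierstrassCurve WeierstrassCurve.Affine WeierstrassCurve.Affine.Point

namespace Fermat.Agent.EC.Fifteen

local notation "Qbar" => AlgebraicClosure ℚ

/-- A point spanning a Galois-stable line, when the mod-`p` representation is reducible. -/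
lemma exists_stable_point {W : WeierstrassCurve ℤ} (hΔ : W.Δ ≠ 0) {p : ℕ} (hp : p.Prime)
    (h : ¬ W.ModRepIsIrreducible p) :
    ∃ (x y : Qbar) (hns : ((W.map (Int.castRingHom ℚ))⁄Qbar).Nonsingular x y),
      p • Affine.Point.some x y hns = 0 ∧
      ∀ σ : Qbar ≃ₐ[ℚ] Qbar, ∃ k : ℕ,
        σ • Affine.Point.some x y hns = k • Affine.Point.some x y hns := by
  have : Fact p.Prime := ⟨hp⟩
  set M := Submodule.torsionBy ℤ ((W.map (Int.castRingHom ℚ))⁄Qbar).Point (p : ℤ)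
  have : (W.map (Int.castRingHom ℚ)).IsElliptic := by
    refine ⟨isUnit_iff_ne_zero.mpr ?_⟩
    rw [WeierstrassCurve.map_Δ, eq_intCast]
    exact_mod_cast hΔ
  have hcard : Nat.card M = p ^ 2 :=
    Fermat.Agent.Isogeny.card_torsionBy_baseChange (W.map (Int.castRingHom ℚ))
      (Nat.cast_ne_zero.mpr hp.ne_zero)
  have : Finite M := Nat.finite_of_card_ne_zero (by rw [hcard]; exact pow_ne_zero 2 hp.ne_zero)
  have : Nontrivial M := Finite.one_lt_card_iff_nontrivial.mp (by rw [hcard]; nlinarith [hp.two_le])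
  obtain ⟨N, hN, hbot, htop⟩ : ∃ N : Submodule (ZMod p) M, IsGaloisStable ℚ N ∧ N ≠ ⊥ ∧ N ≠ ⊤ := by
    by_contra hno
    refine h ⟨‹_›, fun N hN => ?_⟩
    by_contra hne
    exact hno ⟨N, hN, fun e => hne (Or.inl e), fun e => hne (Or.inr e)⟩
  obtain ⟨P, hPN, hP0⟩ := Submodule.exists_mem_ne_zero_of_ne_bot hbot
  obtain ⟨i, hi, hNi⟩ := (Nat.dvd_prime_pow hp).mp
    (hcard ▸ AddSubgroup.card_addSubgroup_dvd_card N.toAddSubgroup)
  have hNcard : Nat.card N.toAddSubgroup = p := by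
    interval_cases i
    · exact absurd (AddSubgroup.card_eq_one.mp (by simpa using hNi))
        (fun e => hbot (Submodule.toAddSubgroup_injective e))
    · simpa using hNi
    · exact absurd (AddSubgroup.eq_top_of_card_eq _ (hNi.trans hcard.symm))
        (fun e => htop (Submodule.toAddSubgroup_injective e))
  obtain ⟨⟨_ | ⟨x, y, hns⟩, hmem⟩, rfl⟩ : ∃ Q, Q = P := ⟨P, rfl⟩
  · exact absurd rfl hP0
  refine ⟨x, y, hns,
    by rw [← natCast_zsmul]; exact (Submodule.mem_torsionBy_iff _ _).mp hmem, fun σ => ?_⟩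
  have hσ : (⟨σ • ⟨_, hmem⟩, hN σ _ hPN⟩ : N.toAddSubgroup)
      ∈ AddSubmonoid.multiples (⟨⟨_, hmem⟩, hPN⟩ : N.toAddSubgroup) :=
    mem_multiples_of_prime_card hNcard (by simp [Subtype.ext_iff])
  obtain ⟨k, hk⟩ := AddSubmonoid.mem_multiples_iff _ _ |>.mp hσ
  exact ⟨k, (congrArg (fun z : N.toAddSubgroup =>
    ((z : M) : ((W.map (Int.castRingHom ℚ))⁄Qbar).Point)) hk.symm).trans (by simp)⟩

private lemma exists_rat_of_fixed {z : Qbar} (h : ∀ σ : Qbar ≃ₐ[ℚ] Qbar, σ z = z) :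
    ∃ r : ℚ, algebraMap ℚ Qbar r = z :=
  (InfiniteGalois.mem_range_algebraMap_iff_fixed z).mpr h

private lemma X_smul {E : WeierstrassCurve ℚ} {x y x' y' : Qbar} {h : (E⁄Qbar).Nonsingular x y}
    {h' : (E⁄Qbar).Nonsingular x' y'} (σ : Qbar ≃ₐ[ℚ] Qbar)
    (he : σ • Affine.Point.some x y h = Affine.Point.some x' y' h') : σ x = x' := by
  rw [algEquiv_smul_def, Affine.Point.map_some] at he
  simp only [Affine.Point.some.injEq] at he
  exact he.1

private lemma base_b₂ (W : WeierstrassCurve ℤ) :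
    WeierstrassCurve.b₂ ((W.map (Int.castRingHom ℚ))⁄Qbar) = (W.b₂ : Qbar) := by
  simp [WeierstrassCurve.baseChange, WeierstrassCurve.map_b₂]

private lemma base_b₄ (W : WeierstrassCurve ℤ) :
    WeierstrassCurve.b₄ ((W.map (Int.castRingHom ℚ))⁄Qbar) = (W.b₄ : Qbar) := by
  simp [WeierstrassCurve.baseChange, WeierstrassCurve.map_b₄]

private lemma base_b₆ (W : WeierstrassCurve ℤ) :
    WeierstrassCurve.b₆ ((W.map (Int.castRingHom ℚ))⁄Qbar) = (W.b₆ : Qbar) := by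
  simp [WeierstrassCurve.baseChange, WeierstrassCurve.map_b₆]

private lemma base_b₈ (W : WeierstrassCurve ℤ) :
    WeierstrassCurve.b₈ ((W.map (Int.castRingHom ℚ))⁄Qbar) = (W.b₈ : Qbar) := by
  simp [WeierstrassCurve.baseChange, WeierstrassCurve.map_b₈]

/-- The rational data of a Galois-stable line of order 3. -/
lemma exists_rat_psi3_root (W : WeierstrassCurve ℤ) (hΔ : W.Δ ≠ 0)
    (h : ¬ W.ModRepIsIrreducible 3) :
    ∃ x : ℚ, 3 * x ^ 4 + W.b₂ * x ^ 3 + 3 * W.b₄ * x ^ 2 + 3 * W.b₆ * x + W.b₈ = 0 := by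
  obtain ⟨x, y, hns, h3, hgal⟩ := exists_stable_point hΔ Nat.prime_three h
  obtain ⟨r, rfl⟩ : ∃ r : ℚ, algebraMap ℚ Qbar r = x := by
    refine exists_rat_of_fixed fun σ => ?_
    obtain ⟨k, hk⟩ := hgal σ
    have hk' : σ • Affine.Point.some x y hns = (k % 3) • Affine.Point.some x y hns := by
      rw [hk]
      conv_lhs => rw [← Nat.mod_add_div k 3, add_nsmul, mul_nsmul, h3, nsmul_zero, add_zero]
    have hlt := Nat.mod_lt k (show 3 > 0 by norm_num)
    interval_cases (k % 3)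
    · rw [zero_nsmul, algEquiv_smul_def, Affine.Point.map_some] at hk'
      exact absurd hk' (Affine.Point.some_ne_zero _)
    · exact X_smul σ (hk'.trans (one_nsmul _))
    · refine X_smul σ (hk'.trans ?_)
        (h' := ((_ : WeierstrassCurve.Affine Qbar).nonsingular_neg x y).mpr hns)
      rw [← Affine.Point.neg_some (h := hns)]
      rw [succ_nsmul] at h3
      exact eq_neg_of_add_eq_zero_left h3
  refine ⟨r, (algebraMap ℚ Qbar).injective ?_⟩
  have := psi3_eq_zero h3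
  rw [base_b₂, base_b₄, base_b₆, base_b₈] at this
  simp only [map_add, map_mul, map_pow, map_ofNat, map_intCast, _root_.map_zero]
  exact this

/-- The rational data of a Galois-stable line of order 5. -/
lemma exists_rat_five_data (W : WeierstrassCurve ℤ) (hΔ : W.Δ ≠ 0)
    (h : ¬ W.ModRepIsIrreducible 5) :
    ∃ c D g : ℚ, D ≠ 0 ∧
      4 * (3 * c ^ 2 + W.b₂ / 2 * c + W.b₄ / 2) = 4 * g - D ∧
      8 * (c ^ 3 + W.b₂ / 4 * c ^ 2 + W.b₄ / 2 * c + W.b₆ / 4) = (6 * c + W.b₂ / 2) * D ∧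
      (6 * c + W.b₂ / 2) ^ 2 * D = D ^ 2 + 4 * g ^ 2 := by
  obtain ⟨x₁, y₁, h₁, h5, hgal⟩ := exists_stable_point hΔ (show Nat.Prime 5 by norm_num) h
  obtain ⟨x₂, y₂, g, h₂, hPP, hne, hk, hm, hrel⟩ := five_data h5
  have hswap : ∀ σ : Qbar ≃ₐ[ℚ] Qbar, (σ x₁ = x₁ ∧ σ x₂ = x₂) ∨ (σ x₁ = x₂ ∧ σ x₂ = x₁) := by
    intro σ
    obtain ⟨k, hk⟩ := hgal σ
    set P := Affine.Point.some x₁ y₁ h₁ with hP
    set Q := Affine.Point.some x₂ y₂ h₂ with hQ
    have hk' : σ • P = (k % 5) • P := by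
      rw [hk]
      conv_lhs => rw [← Nat.mod_add_div k 5, add_nsmul, mul_nsmul, h5, nsmul_zero, add_zero]
    have hsQ : σ • Q = (2 * (k % 5)) • P := by
      rw [← hPP, smul_add, hk', two_mul, add_nsmul]
    have h2 : (2 : ℕ) • P = Q := by rw [two_nsmul, hPP]
    have h4 : (4 : ℕ) • P = -P := eq_neg_of_add_eq_zero_left (by rw [← succ_nsmul]; exact h5)
    have h3 : (3 : ℕ) • P = -Q := eq_neg_of_add_eq_zero_left (by rw [← h2, ← add_nsmul]; exact h5)
    have h6 : (6 : ℕ) • P = P := by rw [show 6 = 5 + 1 from rfl, succ_nsmul, h5, zero_add]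
    have h8 : (8 : ℕ) • P = -Q := by rw [show 8 = 5 + 3 from rfl, add_nsmul, h5, zero_add, h3]
    have hlt := Nat.mod_lt k (show 5 > 0 by norm_num)
    interval_cases (k % 5)
    · rw [zero_nsmul, algEquiv_smul_def, Affine.Point.map_some] at hk'
      exact absurd hk' (Affine.Point.some_ne_zero _)
    · rw [one_nsmul] at hk'
      rw [mul_one, h2] at hsQ
      exact Or.inl ⟨X_smul σ hk', X_smul σ hsQ⟩
    · rw [h2] at hk'
      rw [show 2 * 2 = 4 from rfl, h4, hP, Affine.Point.neg_some] at hsQ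
      exact Or.inr ⟨X_smul σ hk', X_smul σ hsQ⟩
    · rw [h3, hQ, Affine.Point.neg_some] at hk'
      rw [show 2 * 3 = 6 from rfl, h6] at hsQ
      exact Or.inr ⟨X_smul σ hk', X_smul σ hsQ⟩
    · rw [h4, hP, Affine.Point.neg_some] at hk'
      rw [show 2 * 4 = 8 from rfl, h8, hQ, Affine.Point.neg_some] at hsQ
      exact Or.inl ⟨X_smul σ hk', X_smul σ hsQ⟩
  obtain ⟨c, hc⟩ := exists_rat_of_fixed (z := (x₁ + x₂) / 2) fun σ => by
    rcases hswap σ with ⟨a, b⟩ | ⟨a, b⟩ <;> simp [map_div₀, map_add, a, b, map_ofNat, add_comm]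
  obtain ⟨D, hD⟩ := exists_rat_of_fixed (z := (x₁ - x₂) ^ 2) fun σ => by
    rcases hswap σ with ⟨a, b⟩ | ⟨a, b⟩
    · simp [a, b]
    · simp only [map_pow, map_sub, a, b]; ring
  rw [← hc, ← hD] at hk hm hrel
  rw [base_b₂, base_b₄] at hk
  rw [base_b₂, base_b₄, base_b₆] at hm
  rw [base_b₂] at hrel
  have hg : g = algebraMap ℚ Qbar
      ((4 * (3 * c ^ 2 + W.b₂ / 2 * c + W.b₄ / 2) + D) / 4) := by
    simp only [map_add, map_mul, map_div₀, map_pow, map_ofNat, map_intCast]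
    linear_combination (-1 / 4 : Qbar) * hk
  refine ⟨c, D, (4 * (3 * c ^ 2 + W.b₂ / 2 * c + W.b₄ / 2) + D) / 4, ?_, by ring,
    (algebraMap ℚ Qbar).injective ?_, (algebraMap ℚ Qbar).injective ?_⟩
  · rintro rfl
    rw [_root_.map_zero] at hD
    exact hne (sub_eq_zero.mp (pow_eq_zero_iff two_ne_zero |>.mp hD.symm))
  · simp only [map_add, map_mul, map_div₀, map_pow, map_ofNat, map_intCast]
    exact hm
  · rw [hg] at hrel
    simp only [map_add, map_mul, map_div₀, map_pow, map_ofNat, map_intCast] at hrel ⊢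
    exact hrel

/-- A semistable integral Weierstrass curve has irreducible mod-3 or mod-5 representation. -/
theorem irreducible_three_or_five (W : WeierstrassCurve ℤ) (hΔ : W.Δ ≠ 0)
    (hW : W.IsSemistableModel) : W.ModRepIsIrreducible 3 ∨ W.ModRepIsIrreducible 5 := by
  by_contra hno
  obtain ⟨h3, h5⟩ := not_or.mp hno
  obtain ⟨x, hx⟩ := exists_rat_psi3_root W hΔ h3
  obtain ⟨c, D, g, hD0, hk, hm, hrel⟩ := exists_rat_five_data W hΔ h5
  have hb : 4 * (W.b₈ : ℚ) = W.b₂ * W.b₆ - W.b₄ ^ 2 := by exact_mod_cast W.b_relation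
  have hc4 : cubicC4 (6 * c + W.b₂ / 2) (4 * g - D) = 4 * W.c₄ := by
    rw [← hk, cubicC4, WeierstrassCurve.c₄]; push_cast; ring
  have hdis : cubicDelta (6 * c + W.b₂ / 2) (4 * g - D) ((6 * c + W.b₂ / 2) * D) = 64 * W.Δ := by
    rw [← hk, ← hm, cubicDelta, WeierstrassCurve.Δ]; push_cast
    linear_combination (16 * (W.b₂ : ℚ) ^ 2) * hb
  obtain ⟨P, Q, hP5, hP125, hPQ, hj⟩ := j_of_three_five hD0 hrel (Z := 2 * (x - c)) (by
    linear_combination 16 * hx
      - 6 * (2 * (x - c)) ^ 2 * hk - 12 * (2 * (x - c)) * hm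
      - 4 * hrel - 4 * (6 * c + W.b₂ / 2) * hm
      + (4 * (3 * c ^ 2 + W.b₂ / 2 * c + W.b₄ / 2) + (4 * g - D)) * hk
      - 4 * hb) (by rw [hdis]; exact mul_ne_zero (by norm_num) (by exact_mod_cast hΔ))
  have hjZ : Q * W.c₄ ^ 3 = P * W.Δ := by
    rw [hc4, hdis] at hj
    have : ((Q * W.c₄ ^ 3 : ℤ) : ℚ) = (P * W.Δ : ℤ) := by push_cast; linear_combination hj / 64
    exact_mod_cast this
  have hco : IsCoprime W.c₄ W.Δ := by
    rw [Int.isCoprime_iff_gcd_eq_one]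
    by_contra hne
    obtain ⟨p, hp, hdvd⟩ := Nat.exists_prime_and_dvd hne
    exact hW p hp ((Int.natCast_dvd_natCast.mpr hdvd).trans (Int.gcd_dvd_right _ _))
      ((Int.natCast_dvd_natCast.mpr hdvd).trans (Int.gcd_dvd_left _ _))
  have h5c : (5 : ℤ) ∣ W.c₄ :=
    (Int.prime_iff_natAbs_prime.mpr (by norm_num)).dvd_of_dvd_pow
      (hP5.trans (hPQ.dvd_of_dvd_mul_left (⟨W.Δ, hjZ⟩ : P ∣ Q * W.c₄ ^ 3)))
  have hdvd : W.c₄ ^ 3 ∣ P :=
    (hco.pow_left (m := 3)).dvd_of_dvd_mul_right ⟨Q, by rw [← hjZ]; ring⟩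
  exact hP125 ((by simpa using pow_dvd_pow_of_dvd h5c 3 : (125:ℤ) ∣ W.c₄ ^ 3).trans hdvd)

end Fermat.Agent.EC.Fifteen
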