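import Fermat.Agent.EC.Fifteen.Descent

/-! The curves `y² = Z³ + qZ² + (4g-D)Z + qD` (a rational cyclic subgroup of order 5) that also have
a rational root of `ψ₃`. -/

set_option autoImplicit false

namespace Fermat.Agent.EC.Fifteen

/-- `c₄` of `y² = Z³ + qZ² + kZ + m`. -/
def cubicC4 (q k : ℚ) : ℚ := 16 * (q ^ 2 - 3 * k)

/-- The discriminant of `y² = Z³ + qZ² + kZ + m`. -/
def cubicDelta (q k m : ℚ) : ℚ :=
  -(4 * q) ^ 2 * (4 * q * m - k ^ 2) - 8 * (2 * k) ^ 3 - 27 * (4 * m) ^ 2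
    + 9 * (4 * q) * (2 * k) * (4 * m)

private lemma exceptional {q D g Z r e g₀ c d : ℚ} {P Q : ℤ}
    (_hZ : Z = r * q) (hD : D = e * q ^ 2) (hg : g = g₀ * q ^ 2)
    (hc : cubicC4 1 (4 * g₀ - e) = c) (hd : cubicDelta 1 (4 * g₀ - e) e = d)
    (h : (Q : ℚ) * c ^ 3 = P * d) :
    (Q : ℚ) * cubicC4 q (4 * g - D) ^ 3 = P * cubicDelta q (4 * g - D) (q * D) := by
  subst hc hd hD hg
  unfold cubicC4 cubicDelta at *
  linear_combination q ^ 6 * h

/-- Every non-singular such curve has `j = P/Q` with `5 ∣ P` and `125 ∤ P`. -/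
theorem j_of_three_five {q D g Z : ℚ} (hD : D ≠ 0) (hrel : q ^ 2 * D = D ^ 2 + 4 * g ^ 2)
    (hψ : 3 * (Z ^ 2 - D) ^ 2 + 8 * g * (3 * Z ^ 2 + D) + 4 * q * Z * (Z ^ 2 + 3 * D) = 0)
    (hΔ : cubicDelta q (4 * g - D) (q * D) ≠ 0) :
    ∃ P Q : ℤ, (5 : ℤ) ∣ P ∧ ¬ (125 : ℤ) ∣ P ∧ IsCoprime P Q ∧
      (Q : ℚ) * cubicC4 q (4 * g - D) ^ 3 = P * cubicDelta q (4 * g - D) (q * D) := by
  have hq : q ≠ 0 := by
    rintro rfl
    exact hD (pow_eq_zero_iff two_ne_zero |>.mp (by nlinarith [sq_nonneg D, sq_nonneg g]))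
  have hDpos : 0 < D := by
    rcases hD.lt_or_gt with h | h
    · nlinarith [sq_nonneg g, sq_pos_of_ne_zero hD, sq_pos_of_ne_zero hq]
    · exact h
  by_cases hZ : Z = 0
  · -- the point at infinity
    subst hZ
    have hg : g = -3 * D / 8 := by
      have : D * (3 * D + 8 * g) = 0 := by linear_combination hψ
      rcases mul_eq_zero.mp this with h | h
      · exact absurd h hD
      · linarith
    have hDq : D = 16 / 25 * q ^ 2 := by
      subst hg
      refine mul_left_cancel₀ hD ?_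
      linear_combination (-(16:ℚ) / 25) * hrel
    refine ⟨-121945, 32, by norm_num, by norm_num, Int.isCoprime_iff_gcd_eq_one.mpr (by norm_num),
      exceptional (q := q) (Z := (0:ℚ)) (r := 0) (e := 16 / 25) (g₀ := -6 / 25)
        (c := 464 / 5) (d := -131072 / 625) (by simp) hDq (by rw [hg, hDq]; ring) ?_ ?_
          (by norm_num)⟩
    · norm_num [cubicC4]
    · norm_num [cubicDelta]
  · obtain ⟨E, rfl⟩ : ∃ E, D = E * Z ^ 2 := ⟨D / Z ^ 2, by field_simp⟩
    have hE : 0 < E := pos_of_mul_pos_left hDpos (sq_nonneg Z)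
    set K := 3 * (1 - E) ^ 2 * Z + 4 * q * (1 + 3 * E) with hK
    have hlin : 8 * g * (3 + E) = -(Z * K) := by
      refine mul_left_cancel₀ (pow_ne_zero 2 hZ) ?_
      linear_combination hψ
    have hK2 : K ^ 2 = 16 * E * (3 + E) ^ 2 * (q ^ 2 - E * Z ^ 2) := by
      refine mul_left_cancel₀ (pow_ne_zero 2 hZ) ?_
      linear_combination (-(8 * g * (3 + E) - Z * K)) * hlin - 16 * (3 + E) ^ 2 * hrel
    set A := 9 * (1 - E) ^ 4 + 16 * E ^ 2 * (3 + E) ^ 2 with hA
    have hquad : A * Z ^ 2 + 24 * (1 - E) ^ 2 * (1 + 3 * E) * q * Z +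
        16 * (1 - E) ^ 3 * q ^ 2 = 0 := by
      rw [hA]; linear_combination hK2
    have hE1 : E ≠ 1 := by
      rintro rfl
      norm_num [hA, hZ] at hquad
    set L := A * Z + 12 * (1 - E) ^ 2 * (1 + 3 * E) * q with hL
    have hL2 : L ^ 2 = 16 * q ^ 2 * (1 - E) ^ 3 * E * (3 + E) ^ 2 * (9 - 25 * E) := by
      rw [hL]; linear_combination A * hquad + (0 : ℚ) * hA
    have hne : 4 * q * (1 - E) * (3 + E) ≠ 0 :=
      mul_ne_zero (mul_ne_zero (mul_ne_zero four_ne_zero hq) (sub_ne_zero.mpr hE1.symm))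
        (by linarith)
    have hpt : (25 * (L / (4 * q * (1 - E) * (3 + E)))) ^ 2
        = 25 * E * (25 * E - 9) * (25 * E - 25) := by
      rw [mul_pow, div_pow, mul_div_assoc', div_eq_iff (pow_ne_zero 2 hne), hL2]
      ring
    -- recover `g` from the linear equation
    have key : ∀ r e g₀ : ℚ, Z = r * q → e = E * r ^ 2 →
        8 * g₀ * (3 + E) = -(r * (3 * (1 - E) ^ 2 * r + 4 * (1 + 3 * E))) →
        E * Z ^ 2 = e * q ^ 2 ∧ g = g₀ * q ^ 2 := by
      intro r e g₀ h1 h2 h3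
      refine ⟨by rw [h1, h2]; ring, mul_left_cancel₀ (show (8 : ℚ) * (3 + E) ≠ 0 by linarith) ?_⟩
      linear_combination hlin - Z * hK - q ^ 2 * h3
        - (3 * (1 - E) ^ 2 * (Z + r * q) + 4 * q * (1 + 3 * E)) * h1
    have roots : ∀ r₁ r₂ : ℚ, A ≠ 0 → A * (r₁ + r₂) = -(24 * (1 - E) ^ 2 * (1 + 3 * E)) →
        A * (r₁ * r₂) = 16 * (1 - E) ^ 3 → Z = r₁ * q ∨ Z = r₂ * q := by
      intro r₁ r₂ hA0 h1 h2
      have : A * ((Z - r₁ * q) * (Z - r₂ * q)) = 0 := by
        linear_combination hquad - q * Z * h1 + q ^ 2 * h2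
      rcases mul_eq_zero.mp ((mul_eq_zero.mp this).resolve_left hA0) with h | h
      · exact Or.inl (sub_eq_zero.mp h)
      · exact Or.inr (sub_eq_zero.mp h)
    rcases x0fifteen_points hpt with h | h | h | h | h
    · exfalso; linarith
    · have hE' : E = 9 / 25 := by linarith
      subst hE'
      have hr : Z = -16 / 39 * q := by
        rcases roots (-16/39) (-16/39) (by norm_num [hA]) (by norm_num [hA]) (by norm_num [hA]) with
          h | h <;> exact h
      obtain ⟨h1, h2⟩ := key _ (256 / 4225) (504 / 4225) hr (by norm_num) (by norm_num)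
      exact ⟨46969655, 32768, by norm_num, by norm_num,
        Int.isCoprime_iff_gcd_eq_one.mpr (by norm_num),
        exceptional hr h1 h2 (c := -3376 / 845) (d := -134217728 / 3016755625)
          (by norm_num [cubicC4]) (by norm_num [cubicDelta]) (by norm_num)⟩
    · exfalso; exact hE1 (by linarith)
    · have hE' : E = 1 / 5 := by linarith
      subst hE'
      rcases roots (-2/5) (-2) (by norm_num [hA]) (by norm_num [hA]) (by norm_num [hA]) with hr | hr
      · exfalso
        obtain ⟨h1, h2⟩ := key _ (4 / 125) (11 / 125) hr (by norm_num) (by norm_num)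
        apply hΔ
        rw [h1, h2]; unfold cubicDelta; ring
      · obtain ⟨h1, h2⟩ := key _ (4 / 5) (1 / 5) hr (by norm_num) (by norm_num)
        exact ⟨-25, 2, by norm_num, by norm_num, Int.isCoprime_iff_gcd_eq_one.mpr (by norm_num),
          exceptional hr h1 h2 (c := 16) (d := -8192 / 25)
            (by norm_num [cubicC4]) (by norm_num [cubicDelta]) (by norm_num)⟩
    · have hE' : E = 9 / 5 := by linarith
      subst hE'
      rcases roots (2/39) (-2/15) (by norm_num [hA]) (by norm_num [hA]) (by norm_num [hA])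
        with hr | hr
      · obtain ⟨h1, h2⟩ := key _ (4 / 845) (-29 / 845) hr (by norm_num) (by norm_num)
        exact ⟨-349938025, 8, by norm_num, by norm_num,
          Int.isCoprime_iff_gcd_eq_one.mpr (by norm_num),
          exceptional hr h1 h2 (c := 3856 / 169) (d := -32768 / 120670225)
            (by norm_num [cubicC4]) (by norm_num [cubicDelta]) (by norm_num)⟩
      · exfalso
        obtain ⟨h1, h2⟩ := key _ (4 / 125) (11 / 125) hr (by norm_num) (by norm_num)
        apply hΔ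
        rw [h1, h2]; unfold cubicDelta; ring

end Fermat.Agent.EC.Fifteen
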